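/-
S52 / K3 (helper6): the INTERFACE consumed by the descent step of the 3-5 switch
(helper56's plan, report 201).  Everything is stated over `Qb = AlgebraicClosure ℚ`.

`KleinData` bundles what brick K1 (explicit icosahedral forms, torsion points, transformation
laws) has to provide; `KleinData.Fibres` is what brick K2 (existence / transitivity on the fibres
of `(H, T)`) has to provide.  No polynomial structure is required here: the forms are plain
functions `Qb × Qb → Qb` together with their Galois-compatibility (rational coefficients),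
`Γ`-invariance and `μ₅`-homogeneity.

Conventions: the universal curve is `y² = x³ + 27 H(v) x - 54 T(v)` (so `c₄ = -H`, `c₆ = T` up to
the usual powers of `6`).  With the other sign convention simply instantiate `T := -T_Klein`.
`Q` is the torsion point whose coordinates have RATIONAL coefficients, `R` the one on which
conjugating the coefficients acts through a character.  `Γ` may be instantiated as the set of ALL
linear maps having the listed properties (then `inv_*`, `cov_g`, `law` hold by definition and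
`Fibres.trans` has to produce an element of that set, e.g. by closure induction on words in the
two generators).
-/
import Mathlib
import Fermat.Prelude.Def_FLTPrelim_GaloisRep

set_option autoImplicit false

open WeierstrassCurve WeierstrassCurve.Affine

namespace Fermat.Agent.S52K3

/-- `ℚ̄`. -/
abbrev Qb := AlgebraicClosure ℚ

/-- `Gal(ℚ̄/ℚ)`. -/
abbrev GQ := (AlgebraicClosure ℚ ≃ₐ[ℚ] AlgebraicClosure ℚ)

/-- pairs `v = (z₁, z₂)`. -/
abbrev V2 := Qb × Qb

/-- coordinatewise Galois action on pairs. -/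
noncomputable def gal (σ : GQ) (v : V2) : V2 := (σ v.1, σ v.2)

/-- The curve `y² = x³ + 27 h x - 54 t` over `ℚ̄` (`h = H(v)`, `t = T(v)` for the Klein forms). -/
noncomputable def kleinCurve (h t : Qb) : Affine Qb := ⟨0, 0, 0, 27 * h, -54 * t⟩

/-- The same curve over `ℚ`: `y² = x³ - 27 c₄ x - 54 c₆`. -/
def shortQ (c4 c6 : ℚ) : Affine ℚ := ⟨0, 0, 0, -27 * c4, -54 * c6⟩

/-- "the point of `W` with affine coordinates `(x, y)` is `P`". -/
def PtEq (W : Affine Qb) (x y : Qb) (P : W.Point) : Prop :=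
  ∃ h : W.Nonsingular x y, Point.some x y h = P

/-- The data provided by brick K1. -/
structure KleinData where
  /-- a primitive fifth root of unity (only used through homogeneity) -/
  ζ : Qb
  /-- the Klein forms of degrees 20, 30, 12 -/
  H : V2 → Qb
  T : V2 → Qb
  f : V2 → Qb
  /-- the symplectic gradient `v ↦ (∂f/∂z₂, -∂f/∂z₁)(v)` -/
  g : V2 → V2
  /-- coordinates of the two `5`-torsion points on `kleinCurve (H v) (T v)` -/
  xQ : V2 → Qb
  yQ : V2 → Qb
  xR : V2 → Qb
  yR : V2 → Qb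
  /-- the binary icosahedral group, as linear maps -/
  Γ : Set (V2 →ₗ[Qb] V2)
  /-- Klein's relation -/
  rel : ∀ v : V2, T v ^ 2 + H v ^ 3 = 1728 * f v ^ 5
  -- rational coefficients
  gal_H : ∀ (σ : GQ) (v : V2), σ (H v) = H (gal σ v)
  gal_T : ∀ (σ : GQ) (v : V2), σ (T v) = T (gal σ v)
  gal_g : ∀ (σ : GQ) (v : V2), gal σ (g v) = g (gal σ v)
  gal_xQ : ∀ (σ : GQ) (v : V2), σ (xQ v) = xQ (gal σ v)
  gal_yQ : ∀ (σ : GQ) (v : V2), σ (yQ v) = yQ (gal σ v)
  -- invariance / covariance under `Γ`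
  inv_H : ∀ γ ∈ Γ, ∀ v : V2, H (γ v) = H v
  inv_T : ∀ γ ∈ Γ, ∀ v : V2, T (γ v) = T v
  cov_g : ∀ γ ∈ Γ, ∀ v : V2, g (γ v) = γ (g v)
  -- homogeneity under `μ₅` (degrees 20, 30, 11, 10, 15, 10, 15)
  scal_H : ∀ v : V2, H (ζ • v) = H v
  scal_T : ∀ v : V2, T (ζ • v) = T v
  scal_g : ∀ v : V2, g (ζ • v) = ζ • g v
  scal_xQ : ∀ v : V2, xQ (ζ • v) = xQ v
  scal_yQ : ∀ v : V2, yQ (ζ • v) = yQ v
  scal_xR : ∀ v : V2, xR (ζ • v) = xR v
  scal_yR : ∀ v : V2, yR (ζ • v) = yR v
  -- the torsion points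
  nonsingQ : ∀ v : V2, f v ≠ 0 → (kleinCurve (H v) (T v)).Nonsingular (xQ v) (yQ v)
  nonsingR : ∀ v : V2, f v ≠ 0 → (kleinCurve (H v) (T v)).Nonsingular (xR v) (yR v)
  fiveQ : ∀ (v : V2) (hv : f v ≠ 0),
    (5 : ℕ) • (Point.some (xQ v) (yQ v) (nonsingQ v hv) : (kleinCurve (H v) (T v)).Point) = 0
  fiveR : ∀ (v : V2) (hv : f v ≠ 0),
    (5 : ℕ) • (Point.some (xR v) (yR v) (nonsingR v hv) : (kleinCurve (H v) (T v)).Point) = 0
  indep : ∀ (v : V2) (hv : f v ≠ 0) (a b : ℤ),
    a • (Point.some (xQ v) (yQ v) (nonsingQ v hv) : (kleinCurve (H v) (T v)).Point) +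
      b • (Point.some (xR v) (yR v) (nonsingR v hv) : (kleinCurve (H v) (T v)).Point) = 0 →
    (5 : ℤ) ∣ a ∧ (5 : ℤ) ∣ b
  /-- transformation law of the level structure under `Γ` (on the curve `E_v = E_{γ v}`):
  `Q(γ v) = a Q(v) + c R(v)`, `R(γ v) = b Q(v) + d R(v)` with `a b c d` independent of `v`. -/
  law : ∀ γ ∈ Γ, ∃ a b c d : ℤ, ∀ (v : V2) (hv : f v ≠ 0),
    PtEq (kleinCurve (H v) (T v)) (xQ (γ v)) (yQ (γ v))
      (a • (Point.some (xQ v) (yQ v) (nonsingQ v hv)) +
        c • (Point.some (xR v) (yR v) (nonsingR v hv))) ∧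
    PtEq (kleinCurve (H v) (T v)) (xR (γ v)) (yR (γ v))
      (b • (Point.some (xQ v) (yQ v) (nonsingQ v hv)) +
        d • (Point.some (xR v) (yR v) (nonsingR v hv)))
  /-- Galois conjugation of the COEFFICIENTS of `R` multiplies `R` by `e = χ(σ)`:
  `(σ (xR v), σ (yR v)) = e • R(σ v)` on the curve `E_{σ v}`. -/
  galR : ∀ σ : GQ, ∃ e : ℤ, ∀ (v : V2) (hv : f (gal σ v) ≠ 0),
    PtEq (kleinCurve (H (gal σ v)) (T (gal σ v))) (σ (xR v)) (σ (yR v))
      (e • (Point.some (xR (gal σ v)) (yR (gal σ v)) (nonsingR (gal σ v) hv)))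

/-- The data provided by brick K2: every `(h, t)` with `h³ + t² ≠ 0` is hit, and the fibres of
`(H, T)` are single orbits under `μ₅ × Γ` (away from `f H T = 0`). -/
structure KleinData.Fibres (D : KleinData) : Prop where
  exists_v : ∀ h t : Qb, h ^ 3 + t ^ 2 ≠ 0 → ∃ v : V2, D.H v = h ∧ D.T v = t
  trans : ∀ v v' : V2, D.f v ≠ 0 → D.H v ≠ 0 → D.T v ≠ 0 → D.H v' = D.H v → D.T v' = D.T v →
    ∃ (k : ℕ), ∃ γ ∈ D.Γ, v' = D.ζ ^ k • γ v

end Fermat.Agent.S52K3
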