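/-
S52 / K3 (helper6): EXTENSION of the interface `KleinData` (Iface.lean stays frozen) with the three
extra facts needed by brick K5 (construction of `σ₀` from an inertia element at `3`):

* `law_det`  : the matrices of `law` have determinant `≡ 1 (mod 5)`;
* `galR_fix` : if `σ` fixes `ζ`, conjugating the coefficients of `R` does nothing (`e = 1`);
* `inj`      : on a fibre of `(H, T)` the level structure `(Q, R)` determines `v` up to `μ₅`.

`law_det`, `galR_fix` come with the instantiation of `KleinData` (K1/B0/B1), `inj` is a by-product of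
the pigeonhole argument of K2b/B2.
-/
import Mathlib
import Fermat.Prelude.Def_FLTPrelim_GaloisRep
import Fermat.Agent.S52K3.Iface

set_option autoImplicit false

open WeierstrassCurve WeierstrassCurve.Affine

namespace Fermat.Agent.S52K3

/-- Extra facts about a `KleinData` needed by K5. -/
structure KleinData.Ext (D : KleinData) : Prop where
  /-- `law` with the determinant condition -/
  law_det : ∀ γ ∈ D.Γ, ∃ a b c d : ℤ, (5 : ℤ) ∣ a * d - b * c - 1 ∧
    ∀ (v : V2) (hv : D.f v ≠ 0),
    PtEq (kleinCurve (D.H v) (D.T v)) (D.xQ (γ v)) (D.yQ (γ v))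
      (a • (Point.some (D.xQ v) (D.yQ v) (D.nonsingQ v hv)) +
        c • (Point.some (D.xR v) (D.yR v) (D.nonsingR v hv))) ∧
    PtEq (kleinCurve (D.H v) (D.T v)) (D.xR (γ v)) (D.yR (γ v))
      (b • (Point.some (D.xQ v) (D.yQ v) (D.nonsingQ v hv)) +
        d • (Point.some (D.xR v) (D.yR v) (D.nonsingR v hv)))
  /-- if `σ` fixes `ζ` then `σ (R v) = R (σ v)` coordinatewise -/
  galR_fix : ∀ σ : GQ, σ D.ζ = D.ζ → ∀ v : V2,
    σ (D.xR v) = D.xR (gal σ v) ∧ σ (D.yR v) = D.yR (gal σ v)
  /-- the level structure determines `v` on its fibre, up to `μ₅` -/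
  inj : ∀ v v' : V2, D.f v ≠ 0 → D.H v ≠ 0 → D.T v ≠ 0 → D.H v' = D.H v → D.T v' = D.T v →
    D.xQ v' = D.xQ v → D.yQ v' = D.yQ v → D.xR v' = D.xR v → D.yR v' = D.yR v →
    ∃ k : ℕ, v' = D.ζ ^ k • v

end Fermat.Agent.S52K3
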