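/-
S52 / K3 (helper6): from the descent step (curves `shortQ c₄ c₆` over `ℚ`) to integral Weierstrass
models: the Galois-equivariant embedding `W[5](ℚ̄) → W'[5](ℚ̄)` for two integral models whose
`(c₄, c₆)` are `(-H, T)` at two members `v₀`, `v₀ + s g(v₀)` of the Klein family.
-/
import Mathlib
import Fermat.Prelude.Def_FLTPrelim_GaloisRep
import Fermat.Prelude.Def_FLTPrelim_ModularRep
import Fermat.Agent.S05.TransportQ
import Fermat.Agent.S52Top.GlueBases
import Fermat.Agent.S52K3.Descent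

set_option autoImplicit false

open WeierstrassCurve WeierstrassCurve.Affine

namespace Fermat.Agent.S52K3.Integral

open Fermat.Agent.S52K3 Fermat.Agent.S52K3.Descent Fermat.Agent.S52Top.ApCong
  Fermat.Agent.S52Top.GlueBases

/-- the change of variables bringing `W` to the short form `y² = x³ - 27 c₄ x - 54 c₆`. -/
noncomputable def toShort (W : WeierstrassCurve ℚ) : VariableChange ℚ :=
  ⟨Units.mk0 (1 / 6) (by norm_num), -W.b₂ / 12, -W.a₁ / 2, -(W.a₃ - W.b₂ * W.a₁ / 12) / 2⟩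

theorem shortQ_eq (W : WeierstrassCurve ℚ) : shortQ W.c₄ W.c₆ = toShort W • W := by
  unfold shortQ toShort
  ext
  · simp only [variableChange_a₁, Units.val_inv_eq_inv_val, Units.val_mk0]; ring
  · simp only [variableChange_a₂, Units.val_inv_eq_inv_val, Units.val_mk0, b₂]; ring
  · simp only [variableChange_a₃, Units.val_inv_eq_inv_val, Units.val_mk0, b₂]; ring
  · simp only [variableChange_a₄, Units.val_inv_eq_inv_val, Units.val_mk0, b₂, b₄, c₄]; ring
  · simp only [variableChange_a₆, Units.val_inv_eq_inv_val, Units.val_mk0, b₂, b₄, b₆, c₆]; ring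

/-- the (equivariant) identification of the points of the short model with those of `W`. -/
noncomputable def shortEquiv (W : WeierstrassCurve ℚ) :
    ((shortQ W.c₄ W.c₆)⁄Qb).Point ≃+ (W⁄Qb).Point :=
  Fermat.Agent.S05.TransportQ.pointEquivBC Qb (shortQ_eq W)

theorem shortEquiv_smul (W : WeierstrassCurve ℚ) (σ : GQ) (P : ((shortQ W.c₄ W.c₆)⁄Qb).Point) :
    shortEquiv W (σ • P) = σ • shortEquiv W P :=
  Fermat.Agent.S05.TransportQ.pointEquivBC_map (shortQ_eq W) σ.toAlgHom P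

/-- **(K3), final form.**  If the integral models `W`, `W'` have `(c₄, c₆) = (-H, T)` at the two
members `v₀` and `v₀ + s g(v₀)` of a Klein family, then `W[5](ℚ̄)` embeds Galois-equivariantly
into `W'[5](ℚ̄)`. -/
theorem embedding (D : KleinData) (hD : D.Fibres) (W W' : WeierstrassCurve ℤ) (hΔ : W.Δ ≠ 0)
    (hΔ' : W'.Δ ≠ 0) (hc4 : W.c₄ ≠ 0) (hc6 : W.c₆ ≠ 0) {v₀ : V2}
    (hH : D.H v₀ = -((W.c₄ : ℤ) : Qb)) (hT : D.T v₀ = ((W.c₆ : ℤ) : Qb)) (s : ℚ)
    (hH' : D.H (fam D v₀ s) = -((W'.c₄ : ℤ) : Qb))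
    (hT' : D.T (fam D v₀ s) = ((W'.c₆ : ℤ) : Qb)) :
    EquivariantEmbedding W W' 5 := by
  have e4 : (W.map (Int.castRingHom ℚ)).c₄ = (W.c₄ : ℚ) := by rw [map_c₄]; rfl
  have e6 : (W.map (Int.castRingHom ℚ)).c₆ = (W.c₆ : ℚ) := by rw [map_c₆]; rfl
  have e4' : (W'.map (Int.castRingHom ℚ)).c₄ = (W'.c₄ : ℚ) := by rw [map_c₄]; rfl
  have e6' : (W'.map (Int.castRingHom ℚ)).c₆ = (W'.c₆ : ℚ) := by rw [map_c₆]; rfl
  have hd : ∀ V : WeierstrassCurve ℤ, V.Δ ≠ 0 → ((V.c₄ : ℚ)) ^ 3 - ((V.c₆ : ℚ)) ^ 2 ≠ 0 := by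
    intro V hV h
    apply hV
    have h1 : (V.c₄ ^ 3 - V.c₆ ^ 2 : ℤ) = 0 := by exact_mod_cast h
    have h2 := V.c_relation
    rw [h1] at h2
    have : (1728 : ℤ) ≠ 0 := by norm_num
    exact (mul_eq_zero.mp h2).resolve_left this
  obtain ⟨Q, R, Q', R', h5Q, h5R, h5Q', h5R', hind, hind', hgal⟩ :=
    family_matrices D hD (W.map (Int.castRingHom ℚ)).c₄ (W.map (Int.castRingHom ℚ)).c₆
      (by rw [e4]; exact_mod_cast hc4) (by rw [e6]; exact_mod_cast hc6)
      (by rw [e4, e6]; exact hd W hΔ)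
      (v₀ := v₀) (by rw [hH, e4]; simp) (by rw [hT, e6]; simp) s
      (W'.map (Int.castRingHom ℚ)).c₄ (W'.map (Int.castRingHom ℚ)).c₆
      (by rw [e4', e6']; exact hd W' hΔ')
      (by rw [hH', e4']; simp) (by rw [hT', e6']; simp)
  have hinj := (shortEquiv (W.map (Int.castRingHom ℚ))).injective
  have hinj' := (shortEquiv (W'.map (Int.castRingHom ℚ))).injective
  refine equivariantEmbedding_of_points hΔ Nat.prime_five (by norm_num)
    (shortEquiv _ Q) (shortEquiv _ R) ?_ ?_ (shortEquiv _ Q') (shortEquiv _ R') ?_ ?_ ?_ ?_ ?_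
  · rw [← map_nsmul, h5Q, map_zero]
  · rw [← map_nsmul, h5R, map_zero]
  · rw [← map_nsmul, h5Q', map_zero]
  · rw [← map_nsmul, h5R', map_zero]
  · intro a b h
    apply hind a b
    apply hinj
    rw [map_add, map_zsmul, map_zsmul, h, map_zero]
  · intro a b h
    apply hind' a b
    apply hinj'
    rw [map_add, map_zsmul, map_zsmul, h, map_zero]
  · intro σ
    obtain ⟨a, b, c, d, h1, h2, h3, h4⟩ := hgal σ
    refine ⟨a, b, c, d, ?_, ?_, ?_, ?_⟩
    · rw [← shortEquiv_smul, h1, map_add, map_zsmul, map_zsmul]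
    · rw [← shortEquiv_smul, h2, map_add, map_zsmul, map_zsmul]
    · rw [← shortEquiv_smul, h3, map_add, map_zsmul, map_zsmul]
    · rw [← shortEquiv_smul, h4, map_add, map_zsmul, map_zsmul]

end Fermat.Agent.S52K3.Integral
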