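/-
S52 / K3 (helper6): the descent step of the 3-5 switch, from the interface `KleinData`.

Let `v₀` be a point of the fibre of `(H, T)` over a RATIONAL pair `(h, t) = (-c₄, c₆)`, with
`f H T ≠ 0` at `v₀`.  By transitivity (`KleinData.Fibres.trans`) every `σ ∈ Gal(ℚ̄/ℚ)` satisfies
`σ v₀ = ζ^k γ v₀` for some `k`, `γ ∈ Γ` ("`v₀` is twisted-rational").  The covariant `g` produces a
second twisted-rational vector `v₁ = g v₀` with the SAME cocycle, hence all `v_s = v₀ + s v₁`,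
`s ∈ ℚ`, are twisted-rational with the same cocycle.  Consequences:
* `H (v_s)`, `T (v_s)` are rational;
* in the basis `(Q(v_s), R(v_s))` of the `5`-torsion of `E_{v_s}`, `σ` acts through a matrix which
  does not depend on `s`.
-/
import Mathlib
import Fermat.Prelude.Def_FLTPrelim_GaloisRep
import Fermat.Agent.S52K3.Iface

set_option autoImplicit false

open WeierstrassCurve WeierstrassCurve.Affine

namespace Fermat.Agent.S52K3.Descent

open Fermat.Agent.S52K3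

/-! ### A total constructor for affine points -/

/-- the affine point `(x, y)` of `W` (or `0` if `(x, y)` is not a nonsingular point). -/
noncomputable def pt (W : Affine Qb) (x y : Qb) : W.Point :=
  open Classical in if h : W.Nonsingular x y then Point.some x y h else 0

theorem pt_eq {W : Affine Qb} {x y : Qb} (h : W.Nonsingular x y) :
    pt W x y = Point.some x y h := by
  unfold pt
  rw [dif_pos h]

theorem pt_of_ptEq {W : Affine Qb} {x y : Qb} {P : W.Point} (h : PtEq W x y P) :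
    pt W x y = P := by
  obtain ⟨h, rfl⟩ := h
  exact pt_eq h

/-! ### Galois action on pairs -/

theorem gal_add (σ : GQ) (v w : V2) : gal σ (v + w) = gal σ v + gal σ w := by
  simp [gal]

theorem gal_smul (σ : GQ) (c : Qb) (v : V2) : gal σ (c • v) = σ c • gal σ v := by
  simp [gal]

theorem gal_smul_rat (σ : GQ) (s : ℚ) (v : V2) :
    gal σ (algebraMap ℚ Qb s • v) = algebraMap ℚ Qb s • gal σ v := by
  rw [gal_smul, σ.commutes]

/-! ### Iterating the `μ₅`-homogeneity -/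

section scal
variable (D : KleinData)

theorem scal_H_pow (k : ℕ) (v : V2) : D.H (D.ζ ^ k • v) = D.H v := by
  induction k with
  | zero => simp
  | succ k ih => rw [pow_succ', mul_smul, D.scal_H, ih]

theorem scal_T_pow (k : ℕ) (v : V2) : D.T (D.ζ ^ k • v) = D.T v := by
  induction k with
  | zero => simp
  | succ k ih => rw [pow_succ', mul_smul, D.scal_T, ih]

theorem scal_xQ_pow (k : ℕ) (v : V2) : D.xQ (D.ζ ^ k • v) = D.xQ v := by
  induction k with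
  | zero => simp
  | succ k ih => rw [pow_succ', mul_smul, D.scal_xQ, ih]

theorem scal_yQ_pow (k : ℕ) (v : V2) : D.yQ (D.ζ ^ k • v) = D.yQ v := by
  induction k with
  | zero => simp
  | succ k ih => rw [pow_succ', mul_smul, D.scal_yQ, ih]

theorem scal_xR_pow (k : ℕ) (v : V2) : D.xR (D.ζ ^ k • v) = D.xR v := by
  induction k with
  | zero => simp
  | succ k ih => rw [pow_succ', mul_smul, D.scal_xR, ih]

theorem scal_yR_pow (k : ℕ) (v : V2) : D.yR (D.ζ ^ k • v) = D.yR v := by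
  induction k with
  | zero => simp
  | succ k ih => rw [pow_succ', mul_smul, D.scal_yR, ih]

theorem scal_g_pow (k : ℕ) (v : V2) : D.g (D.ζ ^ k • v) = D.ζ ^ k • D.g v := by
  induction k with
  | zero => simp
  | succ k ih => rw [pow_succ', mul_smul, D.scal_g, ih, mul_smul]

/-- `f ≠ 0` iff the discriminant `H³ + T²` is nonzero. -/
theorem f_ne_zero_iff (v : V2) : D.f v ≠ 0 ↔ D.H v ^ 3 + D.T v ^ 2 ≠ 0 := by
  have h := D.rel v
  have h' : D.H v ^ 3 + D.T v ^ 2 = 1728 * D.f v ^ 5 := by rw [← h]; ring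
  rw [h']
  constructor
  · intro hf
    exact mul_ne_zero (by norm_num) (pow_ne_zero 5 hf)
  · intro hne hf
    apply hne
    rw [hf]
    ring

end scal

/-! ### Twisted rationality -/

/-- `σ v = ζ^k γ v`. -/
def Tw (D : KleinData) (σ : GQ) (k : ℕ) (γ : V2 →ₗ[Qb] V2) (v : V2) : Prop :=
  gal σ v = D.ζ ^ k • γ v

section tw
variable {D : KleinData} {σ : GQ} {k : ℕ} {γ : V2 →ₗ[Qb] V2}

theorem Tw.g (hγ : γ ∈ D.Γ) {v : V2} (h : Tw D σ k γ v) : Tw D σ k γ (D.g v) := by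
  unfold Tw at h ⊢
  rw [D.gal_g, h, scal_g_pow, D.cov_g γ hγ]

theorem Tw.add_smul_rat {v w : V2} (hv : Tw D σ k γ v) (hw : Tw D σ k γ w) (s : ℚ) :
    Tw D σ k γ (v + algebraMap ℚ Qb s • w) := by
  unfold Tw at hv hw ⊢
  rw [gal_add, gal_smul_rat, hv, hw, map_add, map_smul, smul_add, smul_comm]

theorem Tw.H (hγ : γ ∈ D.Γ) {v : V2} (h : Tw D σ k γ v) : D.H (gal σ v) = D.H v := by
  rw [h, scal_H_pow, D.inv_H γ hγ]

theorem Tw.T (hγ : γ ∈ D.Γ) {v : V2} (h : Tw D σ k γ v) : D.T (gal σ v) = D.T v := by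
  rw [h, scal_T_pow, D.inv_T γ hγ]

theorem Tw.xQ {v : V2} (h : Tw D σ k γ v) : D.xQ (gal σ v) = D.xQ (γ v) := by
  rw [h, scal_xQ_pow]

theorem Tw.yQ {v : V2} (h : Tw D σ k γ v) : D.yQ (gal σ v) = D.yQ (γ v) := by
  rw [h, scal_yQ_pow]

theorem Tw.xR {v : V2} (h : Tw D σ k γ v) : D.xR (gal σ v) = D.xR (γ v) := by
  rw [h, scal_xR_pow]

theorem Tw.yR {v : V2} (h : Tw D σ k γ v) : D.yR (gal σ v) = D.yR (γ v) := by
  rw [h, scal_yR_pow]

end tw

/-! ### Restating the interface on an arbitrary curve equal to `E_v` -/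

/-- the torsion point `Q(v)` as a point of `W` -/
noncomputable def ptQ (D : KleinData) (W : Affine Qb) (v : V2) : W.Point := pt W (D.xQ v) (D.yQ v)

/-- the torsion point `R(v)` as a point of `W` -/
noncomputable def ptR (D : KleinData) (W : Affine Qb) (v : V2) : W.Point := pt W (D.xR v) (D.yR v)

section restate
variable {D : KleinData} {W : Affine Qb} {v : V2}

theorem nsQ (hW : W = kleinCurve (D.H v) (D.T v)) (hv : D.f v ≠ 0) :
    W.Nonsingular (D.xQ v) (D.yQ v) := by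
  subst hW
  exact D.nonsingQ v hv

theorem nsR (hW : W = kleinCurve (D.H v) (D.T v)) (hv : D.f v ≠ 0) :
    W.Nonsingular (D.xR v) (D.yR v) := by
  subst hW
  exact D.nonsingR v hv

theorem five_ptQ (hW : W = kleinCurve (D.H v) (D.T v)) (hv : D.f v ≠ 0) :
    (5 : ℕ) • ptQ D W v = 0 := by
  subst hW
  unfold ptQ
  rw [pt_eq (D.nonsingQ v hv)]
  exact D.fiveQ v hv

theorem five_ptR (hW : W = kleinCurve (D.H v) (D.T v)) (hv : D.f v ≠ 0) :
    (5 : ℕ) • ptR D W v = 0 := by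
  subst hW
  unfold ptR
  rw [pt_eq (D.nonsingR v hv)]
  exact D.fiveR v hv

theorem indep_pt (hW : W = kleinCurve (D.H v) (D.T v)) (hv : D.f v ≠ 0) (a b : ℤ)
    (h : a • ptQ D W v + b • ptR D W v = 0) : (5 : ℤ) ∣ a ∧ (5 : ℤ) ∣ b := by
  subst hW
  unfold ptQ ptR at h
  rw [pt_eq (D.nonsingQ v hv), pt_eq (D.nonsingR v hv)] at h
  exact D.indep v hv a b h

end restate

theorem law_pt {D : KleinData} {γ : V2 →ₗ[Qb] V2} (hγ : γ ∈ D.Γ) :
    ∃ a b c d : ℤ, ∀ (W : Affine Qb) (v : V2), W = kleinCurve (D.H v) (D.T v) → D.f v ≠ 0 →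
      ptQ D W (γ v) = a • ptQ D W v + c • ptR D W v ∧
      ptR D W (γ v) = b • ptQ D W v + d • ptR D W v := by
  obtain ⟨a, b, c, d, h⟩ := D.law γ hγ
  refine ⟨a, b, c, d, fun W v hW hv => ?_⟩
  subst hW
  obtain ⟨h1, h2⟩ := h v hv
  unfold ptQ ptR
  rw [pt_of_ptEq h1, pt_of_ptEq h2, pt_eq (D.nonsingQ v hv), pt_eq (D.nonsingR v hv)]
  exact ⟨rfl, rfl⟩

theorem galR_pt (D : KleinData) (σ : GQ) :
    ∃ e : ℤ, ∀ (W : Affine Qb) (v : V2), W = kleinCurve (D.H (gal σ v)) (D.T (gal σ v)) →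
      D.f (gal σ v) ≠ 0 → pt W (σ (D.xR v)) (σ (D.yR v)) = e • ptR D W (gal σ v) := by
  obtain ⟨e, h⟩ := D.galR σ
  refine ⟨e, fun W v hW hv => ?_⟩
  subst hW
  unfold ptR
  rw [pt_of_ptEq (h v hv), pt_eq (D.nonsingR (gal σ v) hv)]

/-! ### The Galois action on points of a curve defined over `ℚ` -/

theorem smul_pt (Wq : Affine ℚ) (σ : GQ) {x y : Qb} (h : (Wq⁄Qb).Nonsingular x y) :
    σ • pt (Wq⁄Qb) x y = pt (Wq⁄Qb) (σ x) (σ y) := by
  rw [pt_eq h]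
  have key : ∃ h', σ • (Point.some x y h : (Wq⁄Qb).Point) = Point.some (σ x) (σ y) h' :=
    ⟨_, rfl⟩
  obtain ⟨h', he⟩ := key
  rw [he, pt_eq h']

/-- **The Galois matrices depend only on the cocycle `(k, γ)`.** -/
theorem action (D : KleinData) (σ : GQ) (k : ℕ) {γ : V2 →ₗ[Qb] V2} (hγ : γ ∈ D.Γ) :
    ∃ a b c d : ℤ, ∀ (Wq : Affine ℚ) (v : V2), Wq⁄Qb = kleinCurve (D.H v) (D.T v) → D.f v ≠ 0 →
      Tw D σ k γ v →
      σ • ptQ D (Wq⁄Qb) v = a • ptQ D (Wq⁄Qb) v + b • ptR D (Wq⁄Qb) v ∧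
      σ • ptR D (Wq⁄Qb) v = c • ptQ D (Wq⁄Qb) v + d • ptR D (Wq⁄Qb) v := by
  obtain ⟨a, b, c, d, hlaw⟩ := law_pt hγ
  obtain ⟨e, he⟩ := galR_pt D σ
  refine ⟨a, c, e * b, e * d, fun Wq v hW hv tw => ?_⟩
  obtain ⟨h1, h2⟩ := hlaw _ v hW hv
  constructor
  · rw [← h1]
    unfold ptQ
    rw [smul_pt Wq σ (nsQ hW hv), D.gal_xQ, D.gal_yQ, tw.xQ, tw.yQ]
  · have hW' : Wq⁄Qb = kleinCurve (D.H (gal σ v)) (D.T (gal σ v)) := by
      rw [tw.H hγ, tw.T hγ]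
      exact hW
    have hv' : D.f (gal σ v) ≠ 0 := by
      rw [f_ne_zero_iff, tw.H hγ, tw.T hγ, ← f_ne_zero_iff]
      exact hv
    have h3 := he _ v hW' hv'
    have h4 : ptR D (Wq⁄Qb) (gal σ v) = ptR D (Wq⁄Qb) (γ v) := by
      unfold ptR
      rw [tw.xR, tw.yR]
    rw [mul_smul, mul_smul, ← zsmul_add, ← h2, ← h4, ← h3]
    unfold ptR
    rw [smul_pt Wq σ (nsR hW hv)]

/-! ### The family `v_s = v₀ + s g(v₀)` -/

/-- `v_s = v₀ + s g(v₀)` -/
noncomputable def fam (D : KleinData) (v₀ : V2) (s : ℚ) : V2 := v₀ + algebraMap ℚ Qb s • D.g v₀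

theorem fam_zero (D : KleinData) (v₀ : V2) : fam D v₀ 0 = v₀ := by simp [fam]

/-- All members of the family are twisted-rational with the same cocycle. -/
theorem exists_cocycle (D : KleinData) (hD : D.Fibres) {v₀ : V2} (hf : D.f v₀ ≠ 0)
    (hH0 : D.H v₀ ≠ 0) (hT0 : D.T v₀ ≠ 0) (hHr : ∀ σ : GQ, σ (D.H v₀) = D.H v₀)
    (hTr : ∀ σ : GQ, σ (D.T v₀) = D.T v₀) (σ : GQ) :
    ∃ (k : ℕ) (γ : V2 →ₗ[Qb] V2), γ ∈ D.Γ ∧ ∀ s : ℚ, Tw D σ k γ (fam D v₀ s) := by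
  have h1 : D.H (gal σ v₀) = D.H v₀ := by rw [← D.gal_H, hHr]
  have h2 : D.T (gal σ v₀) = D.T v₀ := by rw [← D.gal_T, hTr]
  obtain ⟨k, γ, hγ, hk⟩ := hD.trans v₀ (gal σ v₀) hf hH0 hT0 h1 h2
  refine ⟨k, γ, hγ, fun s => ?_⟩
  have tw0 : Tw D σ k γ v₀ := hk
  exact tw0.add_smul_rat (tw0.g hγ) s

theorem isAlgClosure_rat' :
    letI : Algebra ℚ (AlgebraicClosure ℚ) := DivisionRing.toRatAlgebra
    IsAlgClosure ℚ (AlgebraicClosure ℚ) := by
  have h : (DivisionRing.toRatAlgebra : Algebra ℚ (AlgebraicClosure ℚ)) =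
      AlgebraicClosure.instAlgebra ℚ := Subsingleton.elim _ _
  rw [h]
  infer_instance

/-- An element of `ℚ̄` fixed by all automorphisms is rational. -/
theorem exists_rat_of_fixed' (x : Qb) (h : ∀ σ : GQ, σ x = x) :
    ∃ q : ℚ, algebraMap ℚ Qb q = x := by
  have := isAlgClosure_rat'
  have h1 := InfiniteGalois.fixedField_fixingSubgroup (k := ℚ) (K := AlgebraicClosure ℚ) ⊥
  have hx : x ∈ IntermediateField.fixedField
      ((⊥ : IntermediateField ℚ (AlgebraicClosure ℚ)).fixingSubgroup) := by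
    intro σ
    exact h σ
  rw [h1] at hx
  exact IntermediateField.mem_bot.mp hx

/-- **Rationality of `H` along the family.** -/
theorem rational_H (D : KleinData) (hD : D.Fibres) {v₀ : V2} (hf : D.f v₀ ≠ 0)
    (hH0 : D.H v₀ ≠ 0) (hT0 : D.T v₀ ≠ 0) (hHr : ∀ σ : GQ, σ (D.H v₀) = D.H v₀)
    (hTr : ∀ σ : GQ, σ (D.T v₀) = D.T v₀) (s : ℚ) :
    ∃ q : ℚ, algebraMap ℚ Qb q = D.H (fam D v₀ s) := by
  apply exists_rat_of_fixed'
  intro σ
  obtain ⟨k, γ, hγ, tw⟩ := exists_cocycle D hD hf hH0 hT0 hHr hTr σ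
  rw [D.gal_H, (tw s).H hγ]

/-- **Rationality of `T` along the family.** -/
theorem rational_T (D : KleinData) (hD : D.Fibres) {v₀ : V2} (hf : D.f v₀ ≠ 0)
    (hH0 : D.H v₀ ≠ 0) (hT0 : D.T v₀ ≠ 0) (hHr : ∀ σ : GQ, σ (D.H v₀) = D.H v₀)
    (hTr : ∀ σ : GQ, σ (D.T v₀) = D.T v₀) (s : ℚ) :
    ∃ q : ℚ, algebraMap ℚ Qb q = D.T (fam D v₀ s) := by
  apply exists_rat_of_fixed'
  intro σ
  obtain ⟨k, γ, hγ, tw⟩ := exists_cocycle D hD hf hH0 hT0 hHr hTr σ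
  rw [D.gal_T, (tw s).T hγ]

/-! ### The short Weierstrass curves over `ℚ` -/

theorem baseChange_shortQ (c4 c6 : ℚ) :
    (shortQ c4 c6)⁄Qb = kleinCurve (-(algebraMap ℚ Qb c4)) (algebraMap ℚ Qb c6) := by
  unfold shortQ kleinCurve
  ext <;> simp [WeierstrassCurve.baseChange, WeierstrassCurve.map]

/-- **Main theorem of the descent step** (in terms of the curves `shortQ`). -/
theorem family_matrices (D : KleinData) (hD : D.Fibres) (c4 c6 : ℚ) (hc4 : c4 ≠ 0) (hc6 : c6 ≠ 0)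
    (hΔ : c4 ^ 3 - c6 ^ 2 ≠ 0) {v₀ : V2} (hH : D.H v₀ = -(algebraMap ℚ Qb c4))
    (hT : D.T v₀ = algebraMap ℚ Qb c6) (s : ℚ) (c4' c6' : ℚ) (hΔ' : c4' ^ 3 - c6' ^ 2 ≠ 0)
    (hH' : D.H (fam D v₀ s) = -(algebraMap ℚ Qb c4'))
    (hT' : D.T (fam D v₀ s) = algebraMap ℚ Qb c6') :
    ∃ (Q R : ((shortQ c4 c6)⁄Qb).Point) (Q' R' : ((shortQ c4' c6')⁄Qb).Point),
      (5 : ℕ) • Q = 0 ∧ (5 : ℕ) • R = 0 ∧ (5 : ℕ) • Q' = 0 ∧ (5 : ℕ) • R' = 0 ∧
      (∀ a b : ℤ, a • Q + b • R = 0 → (5 : ℤ) ∣ a ∧ (5 : ℤ) ∣ b) ∧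
      (∀ a b : ℤ, a • Q' + b • R' = 0 → (5 : ℤ) ∣ a ∧ (5 : ℤ) ∣ b) ∧
      ∀ σ : GQ, ∃ a b c d : ℤ, σ • Q = a • Q + b • R ∧ σ • R = c • Q + d • R ∧
        σ • Q' = a • Q' + b • R' ∧ σ • R' = c • Q' + d • R' := by
  have inj := (algebraMap ℚ Qb).injective
  have hW : (shortQ c4 c6)⁄Qb = kleinCurve (D.H v₀) (D.T v₀) := by
    rw [hH, hT]; exact baseChange_shortQ c4 c6
  have hW' : (shortQ c4' c6')⁄Qb = kleinCurve (D.H (fam D v₀ s)) (D.T (fam D v₀ s)) := by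
    rw [hH', hT']; exact baseChange_shortQ c4' c6'
  have hf : D.f v₀ ≠ 0 := by
    rw [f_ne_zero_iff, hH, hT]
    intro h
    apply hΔ
    apply inj
    rw [map_sub, map_pow, map_pow, map_zero]
    linear_combination -h
  have hf' : D.f (fam D v₀ s) ≠ 0 := by
    rw [f_ne_zero_iff, hH', hT']
    intro h
    apply hΔ'
    apply inj
    rw [map_sub, map_pow, map_pow, map_zero]
    linear_combination -h
  have hH0 : D.H v₀ ≠ 0 := by
    rw [hH, neg_ne_zero]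
    exact fun h => hc4 (inj (by rw [h, map_zero]))
  have hT0 : D.T v₀ ≠ 0 := by
    rw [hT]
    exact fun h => hc6 (inj (by rw [h, map_zero]))
  have hHr : ∀ σ : GQ, σ (D.H v₀) = D.H v₀ := by
    intro σ
    rw [hH, map_neg, σ.commutes]
  have hTr : ∀ σ : GQ, σ (D.T v₀) = D.T v₀ := by
    intro σ
    rw [hT, σ.commutes]
  refine ⟨ptQ D _ v₀, ptR D _ v₀, ptQ D _ (fam D v₀ s), ptR D _ (fam D v₀ s),
    five_ptQ hW hf, five_ptR hW hf, five_ptQ hW' hf', five_ptR hW' hf',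
    indep_pt hW hf, indep_pt hW' hf', fun σ => ?_⟩
  obtain ⟨k, γ, hγ, tw⟩ := exists_cocycle D hD hf hH0 hT0 hHr hTr σ
  obtain ⟨a, b, c, d, hact⟩ := action D σ k hγ
  have tw0 := tw 0
  rw [fam_zero] at tw0
  obtain ⟨h1, h2⟩ := hact (shortQ c4 c6) v₀ hW hf tw0
  obtain ⟨h3, h4⟩ := hact (shortQ c4' c6') (fam D v₀ s) hW' hf' (tw s)
  exact ⟨a, b, c, d, h1, h2, h3, h4⟩

end Fermat.Agent.S52K3.Descent
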