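/-
S52 / K3+K5 glue (helper6): an element `τ ∈ Gal(ℚ̄/ℚ)` which fixes `ζ` and fixes a nonzero
`5`-torsion point of `E` satisfies `τ⁵ v₀ = ζ^k v₀` for every `v₀` in the fibre of `(H, T)` over
`(-c₄(E), c₆(E))`.

Proof: `τ v₀ = ζ^k γ v₀`, so in the basis `(Q(v₀), R(v₀))` of `E[5]` the matrix of `τ` is the one
attached to `γ` by `law_det` (determinant `1` mod `5`).  A fixed nonzero vector and determinant `1`
force `(τ - 1)² = 0` on `E[5]`, hence `τ⁵ = 1` on `E[5]`.  Then `(Q, R)(τ⁵ v₀) = (Q, R)(v₀)` and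
`KleinData.Ext.inj` gives the claim.
-/
import Mathlib
import Fermat.Prelude.Def_FLTPrelim_GaloisRep
import Fermat.Agent.S52Top.GlueBases
import Fermat.Agent.S52K3.IfaceExt
import Fermat.Agent.S52K3.Descent

set_option autoImplicit false

open WeierstrassCurve WeierstrassCurve.Affine

namespace Fermat.Agent.S52K3.Sigma0

open Fermat.Agent.S52K3 Fermat.Agent.S52K3.Descent

/-! ### Linear algebra mod `5` -/

theorem trace_of_fixed (a b c d x y : ZMod 5) (hdet : a * d - b * c - 1 = 0)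
    (h1 : x * a + y * b - x = 0) (h2 : x * c + y * d - y = 0) (hxy : x ≠ 0 ∨ y ≠ 0) :
    a + d - 2 = 0 := by
  have : Fact (Nat.Prime 5) := ⟨by norm_num⟩
  have hx : x * (a + d - 2) = 0 := by linear_combination x * hdet - (d - 1) * h1 + b * h2
  have hy : y * (a + d - 2) = 0 := by linear_combination y * hdet - (a - 1) * h2 + c * h1
  rcases hxy with h | h
  · exact (mul_eq_zero.mp hx).resolve_left h
  · exact (mul_eq_zero.mp hy).resolve_left h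

theorem dvd_iff_cast (m : ℤ) : (5 : ℤ) ∣ m ↔ ((m : ℤ) : ZMod 5) = 0 := by
  rw [ZMod.intCast_zmod_eq_zero_iff_dvd]
  rfl

section abstract
variable {A : Type*} [AddCommGroup A]

theorem smul_eq_zero_of_dvd {X : A} (hX : (5 : ℤ) • X = 0) {m : ℤ} (hm : (5 : ℤ) ∣ m) :
    m • X = 0 := by
  obtain ⟨k, rfl⟩ := hm
  rw [mul_comm, mul_smul, hX, smul_zero]

/-- `(t - 1)² X = 0` and `5 X = 0` imply `t⁵ X = X`. -/
theorem iterate_five (t : A →+ A) {X : A} (hX : (5 : ℤ) • X = 0)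
    (h2 : t (t X) = (2 : ℤ) • t X - X) : t (t (t (t (t X)))) = X := by
  have htX : (5 : ℤ) • t X = 0 := by rw [← map_zsmul, hX, map_zero]
  have h3 : t (t (t X)) = (3 : ℤ) • t X - (2 : ℤ) • X := by
    rw [h2, map_sub, map_zsmul, h2]; abel
  have h4 : t (t (t (t X))) = (4 : ℤ) • t X - (3 : ℤ) • X := by
    rw [h3, map_sub, map_zsmul, map_zsmul, h2]; abel
  rw [h4, map_sub, map_zsmul, map_zsmul, h2]
  have : (4 : ℤ) • ((2 : ℤ) • t X - X) - (3 : ℤ) • t X = (5 : ℤ) • t X - (5 : ℤ) • X + X := by abel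
  rw [this, htX, hX, sub_zero, zero_add]

/-- A determinant-one matrix mod `5` with a nonzero fixed vector has fifth power `1`. -/
theorem pow_five_fix (t : A →+ A) {Q R P : A} (hQ : (5 : ℤ) • Q = 0) (hR : (5 : ℤ) • R = 0)
    (hind : ∀ i j : ℤ, i • Q + j • R = 0 → (5 : ℤ) ∣ i ∧ (5 : ℤ) ∣ j)
    {a b c d x y : ℤ} (hdet : (5 : ℤ) ∣ a * d - b * c - 1)
    (htQ : t Q = a • Q + c • R) (htR : t R = b • Q + d • R)
    (hP : P = x • Q + y • R) (hP0 : P ≠ 0) (htP : t P = P) :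
    t (t (t (t (t Q)))) = Q ∧ t (t (t (t (t R)))) = R := by
  -- the fixed vector
  have hfix : (x * a + y * b - x) • Q + (x * c + y * d - y) • R = 0 := by
    have h := htP
    rw [hP, map_add, map_zsmul, map_zsmul, htQ, htR] at h
    rw [← sub_eq_zero] at h
    rw [← h]
    simp only [smul_add, sub_smul, add_smul, mul_smul]
    abel
  obtain ⟨d1, d2⟩ := hind _ _ hfix
  have hxy : ¬ ((5 : ℤ) ∣ x ∧ (5 : ℤ) ∣ y) := by
    rintro ⟨hx, hy⟩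
    apply hP0
    rw [hP, smul_eq_zero_of_dvd hQ hx, smul_eq_zero_of_dvd hR hy, add_zero]
  -- the trace
  have htr : (5 : ℤ) ∣ a + d - 2 := by
    rw [dvd_iff_cast] at hdet d1 d2 ⊢
    push_cast at hdet d1 d2 ⊢
    apply trace_of_fixed _ _ _ _ _ _ hdet d1 d2
    by_contra hcon
    rw [not_or, not_not, not_not] at hcon
    apply hxy
    rw [dvd_iff_cast, dvd_iff_cast]
    exact hcon
  refine ⟨iterate_five t hQ ?_, iterate_five t hR ?_⟩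
  · -- relation on `Q`
    have e1 : (5 : ℤ) ∣ a ^ 2 + b * c - 2 * a + 1 := by
      have : a ^ 2 + b * c - 2 * a + 1 = a * (a + d - 2) - (a * d - b * c - 1) := by ring
      rw [this]
      exact dvd_sub (Dvd.dvd.mul_left htr a) hdet
    have e2 : (5 : ℤ) ∣ c * (a + d - 2) := Dvd.dvd.mul_left htr c
    have z1 := smul_eq_zero_of_dvd hQ e1
    have z2 := smul_eq_zero_of_dvd hR e2
    rw [htQ, map_add, map_zsmul, map_zsmul, htQ, htR, ← sub_eq_zero]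
    have : a • (a • Q + c • R) + c • (b • Q + d • R) - ((2 : ℤ) • (a • Q + c • R) - Q) =
        (a ^ 2 + b * c - 2 * a + 1) • Q + (c * (a + d - 2)) • R := by
      module
    rw [this, z1, z2, add_zero]
  · -- relation on `R`
    have e1 : (5 : ℤ) ∣ b * (a + d - 2) := Dvd.dvd.mul_left htr b
    have e2 : (5 : ℤ) ∣ b * c + d ^ 2 - 2 * d + 1 := by
      have : b * c + d ^ 2 - 2 * d + 1 = d * (a + d - 2) - (a * d - b * c - 1) := by ring
      rw [this]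
      exact dvd_sub (Dvd.dvd.mul_left htr d) hdet
    have z1 := smul_eq_zero_of_dvd hQ e1
    have z2 := smul_eq_zero_of_dvd hR e2
    rw [htR, map_add, map_zsmul, map_zsmul, htQ, htR, ← sub_eq_zero]
    have : b • (a • Q + c • R) + d • (b • Q + d • R) - ((2 : ℤ) • (b • Q + d • R) - R) =
        (b * (a + d - 2)) • Q + (b * c + d ^ 2 - 2 * d + 1) • R := by
      module
    rw [this, z1, z2, add_zero]

end abstract

/-! ### Spanning -/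

theorem kleinCurve_Δ (h t : Qb) : (kleinCurve h t).Δ = -1259712 * (h ^ 3 + t ^ 2) := by
  simp only [kleinCurve, WeierstrassCurve.Δ, b₂, b₄, b₆, b₈]
  ring

/-- Two independent `5`-torsion points span the `5`-torsion. -/
theorem exists_comb {W : Affine Qb} (hΔ : W.Δ ≠ 0) {Q R : W.Point} (hQ : (5 : ℕ) • Q = 0)
    (hR : (5 : ℕ) • R = 0)
    (hind : ∀ i j : ℤ, i • Q + j • R = 0 → (5 : ℤ) ∣ i ∧ (5 : ℤ) ∣ j) (P : W.Point)
    (hP : (5 : ℕ) • P = 0) : ∃ x y : ℤ, P = x • Q + y • R := by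
  have hmem : ∀ X : W.Point, (5 : ℕ) • X = 0 →
      X ∈ Submodule.torsionBy ℤ W.Point ((5 : ℕ) : ℤ) := by
    intro X hX
    rw [Submodule.mem_torsionBy_iff, natCast_zsmul]
    exact hX
  have hcard : Nat.card (Submodule.torsionBy ℤ W.Point ((5 : ℕ) : ℤ)) = 5 ^ 2 :=
    Fermat.Agent.DivPoly.CardEq29.card_torsionBy_eq hΔ (by decide)
  let Q' : Submodule.torsionBy ℤ W.Point ((5 : ℕ) : ℤ) := ⟨Q, hmem Q hQ⟩
  let R' : Submodule.torsionBy ℤ W.Point ((5 : ℕ) : ℤ) := ⟨R, hmem R hR⟩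
  have hQ' : ((5 : ℕ) : ℤ) • Q' = 0 := Submodule.smul_torsionBy _ Q'
  have hR' : ((5 : ℕ) : ℤ) • R' = 0 := Submodule.smul_torsionBy _ R'
  have hind' : Fermat.Agent.S52Top.GlueBases.IndepMod 5 Q' R' := by
    intro i j h
    apply hind i j
    have := congrArg Subtype.val h
    simpa [Q', R'] using this
  obtain ⟨⟨x, y⟩, hxy⟩ := Fermat.Agent.S52Top.GlueBases.comb_surjective Nat.prime_five hQ' hR'
    hind' hcard ⟨P, hmem P hP⟩
  refine ⟨x, y, ?_⟩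
  have := congrArg Subtype.val hxy
  simpa [Q', R'] using this.symm

/-! ### The matrix of an element fixing `ζ` -/

theorem law_det_pt {D : KleinData} (hE : D.Ext) {γ : V2 →ₗ[Qb] V2} (hγ : γ ∈ D.Γ) :
    ∃ a b c d : ℤ, (5 : ℤ) ∣ a * d - b * c - 1 ∧
      ∀ (W : Affine Qb) (v : V2), W = kleinCurve (D.H v) (D.T v) → D.f v ≠ 0 →
      ptQ D W (γ v) = a • ptQ D W v + c • ptR D W v ∧
      ptR D W (γ v) = b • ptQ D W v + d • ptR D W v := by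
  obtain ⟨a, b, c, d, hdet, h⟩ := hE.law_det γ hγ
  refine ⟨a, b, c, d, hdet, fun W v hW hv => ?_⟩
  subst hW
  obtain ⟨h1, h2⟩ := h v hv
  unfold ptQ ptR
  rw [pt_of_ptEq h1, pt_of_ptEq h2, pt_eq (D.nonsingQ v hv), pt_eq (D.nonsingR v hv)]
  exact ⟨rfl, rfl⟩

theorem action_fix (D : KleinData) (hE : D.Ext) (σ : GQ) (hσ : σ D.ζ = D.ζ) (k : ℕ)
    {γ : V2 →ₗ[Qb] V2} (hγ : γ ∈ D.Γ) :
    ∃ a b c d : ℤ, (5 : ℤ) ∣ a * d - b * c - 1 ∧
      ∀ (Wq : Affine ℚ) (v : V2), Wq⁄Qb = kleinCurve (D.H v) (D.T v) → D.f v ≠ 0 →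
      Tw D σ k γ v →
      σ • ptQ D (Wq⁄Qb) v = a • ptQ D (Wq⁄Qb) v + c • ptR D (Wq⁄Qb) v ∧
      σ • ptR D (Wq⁄Qb) v = b • ptQ D (Wq⁄Qb) v + d • ptR D (Wq⁄Qb) v := by
  obtain ⟨a, b, c, d, hdet, hlaw⟩ := law_det_pt hE hγ
  refine ⟨a, b, c, d, hdet, fun Wq v hW hv tw => ?_⟩
  obtain ⟨h1, h2⟩ := hlaw _ v hW hv
  obtain ⟨g1, g2⟩ := hE.galR_fix σ hσ v
  constructor
  · rw [← h1]
    unfold ptQ
    rw [smul_pt Wq σ (nsQ hW hv), D.gal_xQ, D.gal_yQ, tw.xQ, tw.yQ]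
  · rw [← h2]
    unfold ptR
    rw [smul_pt Wq σ (nsR hW hv), g1, g2, tw.xR, tw.yR]

theorem nonsingular_smul (Wq : Affine ℚ) (σ : GQ) {x y : Qb} (h : (Wq⁄Qb).Nonsingular x y) :
    (Wq⁄Qb).Nonsingular (σ x) (σ y) := by
  have key : ∃ h', σ • (Point.some x y h : (Wq⁄Qb).Point) = Point.some (σ x) (σ y) h' :=
    ⟨_, rfl⟩
  obtain ⟨h', -⟩ := key
  exact h'

theorem pt_inj {W : Affine Qb} {x y x' y' : Qb} (h : W.Nonsingular x y)
    (h' : W.Nonsingular x' y') (e : pt W x y = pt W x' y') : x = x' ∧ y = y' := by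
  rw [pt_eq h, pt_eq h'] at e
  simpa using e

theorem pow_five_apply (τ : GQ) (x : Qb) : (τ ^ 5) x = τ (τ (τ (τ (τ x)))) := by
  simp only [pow_succ, pow_zero, one_mul, AlgEquiv.mul_apply]

/-- **`τ⁵ v₀ = ζ^k v₀`** for `τ` fixing `ζ` and a nonzero `5`-torsion point. -/
theorem gal_pow_five (D : KleinData) (hD : D.Fibres) (hE : D.Ext) (c4 c6 : ℚ) (hc4 : c4 ≠ 0)
    (hc6 : c6 ≠ 0) (hΔ : c4 ^ 3 - c6 ^ 2 ≠ 0) {v₀ : V2} (hH : D.H v₀ = -(algebraMap ℚ Qb c4))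
    (hT : D.T v₀ = algebraMap ℚ Qb c6) (τ : GQ) (hτ : τ D.ζ = D.ζ)
    (P : ((shortQ c4 c6)⁄Qb).Point) (hP5 : (5 : ℕ) • P = 0) (hP0 : P ≠ 0) (hτP : τ • P = P) :
    ∃ k : ℕ, gal (τ ^ 5) v₀ = D.ζ ^ k • v₀ := by
  have inj := (algebraMap ℚ Qb).injective
  have hW : (shortQ c4 c6)⁄Qb = kleinCurve (D.H v₀) (D.T v₀) := by
    rw [hH, hT]; exact baseChange_shortQ c4 c6
  have hd : D.H v₀ ^ 3 + D.T v₀ ^ 2 ≠ 0 := by
    rw [hH, hT]
    intro h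
    apply hΔ
    apply inj
    rw [map_sub, map_pow, map_pow, map_zero]
    linear_combination -h
  have hf : D.f v₀ ≠ 0 := (f_ne_zero_iff D v₀).mpr hd
  have hWΔ : ((shortQ c4 c6)⁄Qb).Δ ≠ 0 := by
    rw [hW, kleinCurve_Δ]
    exact mul_ne_zero (by norm_num) hd
  have hH0 : D.H v₀ ≠ 0 := by
    rw [hH, neg_ne_zero]
    exact fun h => hc4 (inj (by rw [h, map_zero]))
  have hT0 : D.T v₀ ≠ 0 := by
    rw [hT]
    exact fun h => hc6 (inj (by rw [h, map_zero]))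
  have hHr : ∀ σ : GQ, σ (D.H v₀) = D.H v₀ := by
    intro σ
    rw [hH, map_neg, σ.commutes]
  have hTr : ∀ σ : GQ, σ (D.T v₀) = D.T v₀ := by
    intro σ
    rw [hT, σ.commutes]
  obtain ⟨k, γ, hγ, tw⟩ := exists_cocycle D hD hf hH0 hT0 hHr hTr τ
  have tw0 := tw 0
  rw [fam_zero] at tw0
  obtain ⟨a, b, c, d, hdet, hact⟩ := action_fix D hE τ hτ k hγ
  obtain ⟨h1, h2⟩ := hact (shortQ c4 c6) v₀ hW hf tw0
  have q5 := five_ptQ hW hf
  have r5 := five_ptR hW hf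
  have hind := indep_pt (D := D) hW hf
  obtain ⟨x, y, hxy⟩ := exists_comb hWΔ q5 r5 hind P hP5
  have q5' : (5 : ℤ) • ptQ D ((shortQ c4 c6)⁄Qb) v₀ = 0 := by
    rw [← q5]; exact natCast_zsmul _ 5
  have r5' : (5 : ℤ) • ptR D ((shortQ c4 c6)⁄Qb) v₀ = 0 := by
    rw [← r5]; exact natCast_zsmul _ 5
  obtain ⟨e1, e2⟩ := pow_five_fix
    (DistribSMul.toAddMonoidHom ((shortQ c4 c6)⁄Qb).Point τ) q5' r5' hind hdet h1 h2 hxy hP0
    hτP
  simp only [DistribSMul.toAddMonoidHom_apply] at e1 e2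
  have p5 : ∀ X : ((shortQ c4 c6)⁄Qb).Point, (τ ^ 5) • X = τ • τ • τ • τ • τ • X := by
    intro X
    simp only [pow_succ, pow_zero, one_mul, mul_smul]
  have hζ5 : (τ ^ 5) D.ζ = D.ζ := by
    rw [pow_five_apply, hτ, hτ, hτ, hτ, hτ]
  have f1 : (τ ^ 5) • ptQ D ((shortQ c4 c6)⁄Qb) v₀ = ptQ D ((shortQ c4 c6)⁄Qb) v₀ := by
    rw [p5, e1]
  have f2 : (τ ^ 5) • ptR D ((shortQ c4 c6)⁄Qb) v₀ = ptR D ((shortQ c4 c6)⁄Qb) v₀ := by
    rw [p5, e2]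
  have nQ := nsQ hW hf
  have nR := nsR hW hf
  unfold ptQ at f1
  unfold ptR at f2
  rw [smul_pt _ _ nQ] at f1
  rw [smul_pt _ _ nR] at f2
  obtain ⟨x1, y1⟩ := pt_inj (nonsingular_smul _ (τ ^ 5) nQ) nQ f1
  obtain ⟨x2, y2⟩ := pt_inj (nonsingular_smul _ (τ ^ 5) nR) nR f2
  obtain ⟨g1, g2⟩ := hE.galR_fix (τ ^ 5) hζ5 v₀
  refine hE.inj v₀ (gal (τ ^ 5) v₀) hf hH0 hT0 ?_ ?_ ?_ ?_ ?_ ?_
  · rw [← D.gal_H, hHr]
  · rw [← D.gal_T, hTr]
  · rw [← D.gal_xQ, x1]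
  · rw [← D.gal_yQ, y1]
  · rw [← g1, x2]
  · rw [← g2, y2]

end Fermat.Agent.S52K3.Sigma0
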