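/-
S52 / K3+K5 glue (helper6): `Sigma0.gal_pow_five` for an integral Weierstrass model.
-/
import Mathlib
import Fermat.Agent.S52K3.Integral
import Fermat.Agent.S52K3.Sigma0

set_option autoImplicit false

open WeierstrassCurve WeierstrassCurve.Affine

namespace Fermat.Agent.S52K3.Sigma0Int

open Fermat.Agent.S52K3 Fermat.Agent.S52K3.Descent Fermat.Agent.S52K3.Integral
  Fermat.Agent.S52K3.Sigma0

/-- If `τ` fixes `ζ` and a nonzero `5`-torsion point of `W(ℚ̄)`, then `τ⁵ v₀ = ζ^k v₀` for every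
`v₀` in the fibre of `(H, T)` over `(-c₄(W), c₆(W))`. -/
theorem gal_pow_five_int (D : KleinData) (hD : D.Fibres) (hE : D.Ext) (W : WeierstrassCurve ℤ)
    (hΔ : W.Δ ≠ 0) (hc4 : W.c₄ ≠ 0) (hc6 : W.c₆ ≠ 0) {v₀ : V2}
    (hH : D.H v₀ = -((W.c₄ : ℤ) : Qb)) (hT : D.T v₀ = ((W.c₆ : ℤ) : Qb)) (τ : GQ)
    (hτ : τ D.ζ = D.ζ) (P : ((W.map (Int.castRingHom ℚ))⁄Qb).Point) (hP5 : (5 : ℕ) • P = 0)
    (hP0 : P ≠ 0) (hτP : τ • P = P) :
    ∃ k : ℕ, gal (τ ^ 5) v₀ = D.ζ ^ k • v₀ := by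
  have e4 : (W.map (Int.castRingHom ℚ)).c₄ = (W.c₄ : ℚ) := by rw [map_c₄]; rfl
  have e6 : (W.map (Int.castRingHom ℚ)).c₆ = (W.c₆ : ℚ) := by rw [map_c₆]; rfl
  have hd : ((W.c₄ : ℚ)) ^ 3 - ((W.c₆ : ℚ)) ^ 2 ≠ 0 := by
    intro h
    apply hΔ
    have h1 : (W.c₄ ^ 3 - W.c₆ ^ 2 : ℤ) = 0 := by exact_mod_cast h
    have h2 := W.c_relation
    rw [h1] at h2
    have : (1728 : ℤ) ≠ 0 := by norm_num
    exact (mul_eq_zero.mp h2).resolve_left this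
  set φ := shortEquiv (W.map (Int.castRingHom ℚ)) with hφ
  have hφP : φ (φ.symm P) = P := φ.apply_symm_apply P
  refine gal_pow_five D hD hE (W.map (Int.castRingHom ℚ)).c₄ (W.map (Int.castRingHom ℚ)).c₆
    (by rw [e4]; exact_mod_cast hc4) (by rw [e6]; exact_mod_cast hc6)
    (by rw [e4, e6]; exact hd) (by rw [hH, e4]; simp) (by rw [hT, e6]; simp) τ hτ
    (φ.symm P) ?_ ?_ ?_
  · apply φ.injective
    rw [map_nsmul, hφP, hP5, map_zero]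
  · intro h
    apply hP0
    rw [← hφP, h, map_zero]
  · apply φ.injective
    rw [hφ, shortEquiv_smul, ← hφ, hφP, hτP]

end Fermat.Agent.S52K3.Sigma0Int
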