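/-
S52 / K3 (helper6): abstract transport of a Galois action along "the same matrices in two bases".

`A`, `B` additive commutative groups with an action of a monoid `G` by additive maps.  If
`(Q_A, R_A)` and `(Q_B, R_B)` are "bases of the 5-torsion" (every element killed by `n` is an
integral combination, and combinations vanish only with coefficients divisible by `n`) and every
`σ : G` acts on both pairs through the SAME integer matrix, then there is an additive, bijective,
`G`-equivariant map between the `n`-torsion subgroups.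
-/
import Mathlib

set_option autoImplicit false

namespace Fermat.Agent.S52K3.AbstractIso

variable {G A B : Type*} [Monoid G] [AddCommGroup A] [AddCommGroup B]
  [DistribMulAction G A] [DistribMulAction G B]

/-- `(Q, R)` is a basis of the `n`-torsion of `A`. -/
structure IsTorsionBasis (n : ℕ) (Q R : A) : Prop where
  nQ : n • Q = 0
  nR : n • R = 0
  indep : ∀ a b : ℤ, a • Q + b • R = 0 → (n : ℤ) ∣ a ∧ (n : ℤ) ∣ b
  span : ∀ P : A, n • P = 0 → ∃ a b : ℤ, P = a • Q + b • R

namespace IsTorsionBasis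

variable {n : ℕ} {Q R : A}

theorem comb_torsion (h : IsTorsionBasis n Q R) (a b : ℤ) : n • (a • Q + b • R) = 0 := by
  rw [smul_add, smul_comm (n : ℕ) a Q, smul_comm (n : ℕ) b R, h.nQ, h.nR, smul_zero, smul_zero,
    add_zero]

theorem dvd_smul_eq_zero (h : IsTorsionBasis n Q R) {a : ℤ} (ha : (n : ℤ) ∣ a) (P : A)
    (hP : n • P = 0) : a • P = 0 := by
  obtain ⟨c, rfl⟩ := ha
  rw [mul_comm, mul_smul, natCast_zsmul, hP, smul_zero]

theorem comb_eq_iff (h : IsTorsionBasis n Q R) (a b a' b' : ℤ) :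
    a • Q + b • R = a' • Q + b' • R ↔ (n : ℤ) ∣ a - a' ∧ (n : ℤ) ∣ b - b' := by
  constructor
  · intro he
    apply h.indep
    rw [sub_smul, sub_smul]
    have : a • Q + b • R - (a' • Q + b' • R) = 0 := sub_eq_zero.mpr he
    rw [← this]; abel
  · rintro ⟨h1, h2⟩
    have e1 : (a - a') • Q = 0 := h.dvd_smul_eq_zero h1 Q h.nQ
    have e2 : (b - b') • R = 0 := h.dvd_smul_eq_zero h2 R h.nR
    rw [sub_smul, sub_eq_zero] at e1 e2
    rw [e1, e2]

end IsTorsionBasis

/-- The transport theorem. -/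
theorem exists_equivariant {n : ℕ} {QA RA : A} {QB RB : B}
    (hA : IsTorsionBasis n QA RA) (hB : IsTorsionBasis n QB RB)
    (hact : ∀ σ : G, ∃ a b c d : ℤ,
      σ • QA = a • QA + c • RA ∧ σ • RA = b • QA + d • RA ∧
      σ • QB = a • QB + c • RB ∧ σ • RB = b • QB + d • RB) :
    ∃ φ : A → B,
      (∀ P, n • P = 0 → n • φ P = 0) ∧
      (∀ P P', n • P = 0 → n • P' = 0 → φ (P + P') = φ P + φ P') ∧
      (∀ (σ : G) P, n • P = 0 → φ (σ • P) = σ • φ P) ∧
      (∀ P', n • P' = 0 → ∃ P, n • P = 0 ∧ φ P = P') ∧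
      (∀ P, n • P = 0 → φ P = 0 → P = 0) := by
  classical
  -- coordinates
  have hex : ∀ P : A, ∃ ab : ℤ × ℤ, n • P = 0 → P = ab.1 • QA + ab.2 • RA := by
    intro P
    by_cases hP : n • P = 0
    · obtain ⟨a, b, hab⟩ := hA.span P hP
      exact ⟨(a, b), fun _ => hab⟩
    · exact ⟨(0, 0), fun h => absurd h hP⟩
  choose co hco using hex
  let φ : A → B := fun P => (co P).1 • QB + (co P).2 • RB
  -- key: φ of a combination
  have hφ : ∀ a b : ℤ, φ (a • QA + b • RA) = a • QB + b • RB := by
    intro a b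
    have h1 := hco (a • QA + b • RA) (hA.comb_torsion a b)
    have h2 := (hA.comb_eq_iff _ _ _ _).mp h1
    exact ((hB.comb_eq_iff _ _ _ _).mpr h2).symm
  refine ⟨φ, ?_, ?_, ?_, ?_, ?_⟩
  · intro P _
    exact hB.comb_torsion _ _
  · intro P P' hP hP'
    obtain ⟨a, b, rfl⟩ := hA.span P hP
    obtain ⟨a', b', rfl⟩ := hA.span P' hP'
    have : a • QA + b • RA + (a' • QA + b' • RA) = (a + a') • QA + (b + b') • RA := by
      rw [add_smul, add_smul]; abel
    rw [this, hφ, hφ, hφ, add_smul, add_smul]; abel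
  · intro σ P hP
    obtain ⟨x, y, rfl⟩ := hA.span P hP
    obtain ⟨a, b, c, d, h1, h2, h3, h4⟩ := hact σ
    have e1 : σ • (x • QA + y • RA) = (x * a + y * b) • QA + (x * c + y * d) • RA := by
      rw [smul_add, smul_comm σ x QA, smul_comm σ y RA, h1, h2]
      simp only [smul_add, add_smul, mul_smul]
      abel
    have e2 : σ • (x • QB + y • RB) = (x * a + y * b) • QB + (x * c + y * d) • RB := by
      rw [smul_add, smul_comm σ x QB, smul_comm σ y RB, h3, h4]
      simp only [smul_add, add_smul, mul_smul]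
      abel
    rw [e1, hφ, hφ, e2]
  · intro P' hP'
    obtain ⟨a, b, rfl⟩ := hB.span P' hP'
    exact ⟨a • QA + b • RA, hA.comb_torsion a b, hφ a b⟩
  · intro P hP h0
    obtain ⟨a, b, rfl⟩ := hA.span P hP
    rw [hφ] at h0
    obtain ⟨h1, h2⟩ := hB.indep a b h0
    rw [hA.dvd_smul_eq_zero h1 QA hA.nQ, hA.dvd_smul_eq_zero h2 RA hA.nR, add_zero]

end Fermat.Agent.S52K3.AbstractIso
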