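/-
S52 / K3 (helper6): a bridge producing the field `KleinData.Ext.inj` from the `Γ`-shaped
injectivity statement ("an element of `Γ` acting trivially on the level structure at `v` fixes `v`
up to a tenth root of unity"), which is the form in which the orbit/pigeonhole argument of K2b
naturally delivers it.
-/
import Mathlib
import Fermat.Prelude.Def_FLTPrelim_GaloisRep
import Fermat.Agent.S52K3.IfaceExt
import Fermat.Agent.S52K3.Descent

set_option autoImplicit false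

open WeierstrassCurve WeierstrassCurve.Affine

namespace Fermat.Agent.S52K3.ExtBridge

open Fermat.Agent.S52K3 Fermat.Agent.S52K3.Descent

/-- The `y`-coordinate of a `5`-torsion point does not vanish. -/
theorem yQ_ne_zero (D : KleinData) {v : V2} (hv : D.f v ≠ 0) : D.yQ v ≠ 0 := by
  intro h0
  have h5 := D.fiveQ v hv
  set P : (kleinCurve (D.H v) (D.T v)).Point := Point.some (D.xQ v) (D.yQ v) (D.nonsingQ v hv)
    with hP
  have h2 : P + P = 0 := by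
    apply Point.add_self_of_Y_eq
    simp [Affine.negY, kleinCurve, h0]
  have h4 : (5 : ℕ) • P = P + (P + P) + (P + P) := by
    simp only [succ_nsmul, zero_nsmul]
    abel
  rw [h4, h2, add_zero, add_zero] at h5
  exact Point.some_ne_zero _ h5

/-- From the `Γ`-shaped injectivity to `KleinData.Ext.inj`. -/
theorem inj_of_gamma (D : KleinData) (hD : D.Fibres) (hζ : IsPrimitiveRoot D.ζ 5)
    (hodd : ∀ v : V2, D.yQ (-v) = -D.yQ v)
    (injΓ : ∀ γ ∈ D.Γ, ∀ v : V2, D.f v ≠ 0 → D.H v ≠ 0 → D.T v ≠ 0 →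
      D.xQ (γ v) = D.xQ v → D.yQ (γ v) = D.yQ v → D.xR (γ v) = D.xR v → D.yR (γ v) = D.yR v →
      ∃ lam : Qb, lam ^ 10 = 1 ∧ γ v = lam • v) :
    ∀ v v' : V2, D.f v ≠ 0 → D.H v ≠ 0 → D.T v ≠ 0 → D.H v' = D.H v → D.T v' = D.T v →
      D.xQ v' = D.xQ v → D.yQ v' = D.yQ v → D.xR v' = D.xR v → D.yR v' = D.yR v →
      ∃ k : ℕ, v' = D.ζ ^ k • v := by
  intro v v' hf hH0 hT0 hH hT hxQ hyQ hxR hyR
  obtain ⟨k, γ, hγ, hk⟩ := hD.trans v v' hf hH0 hT0 hH hT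
  have e1 : D.xQ (γ v) = D.xQ v := by rw [← hxQ, hk, scal_xQ_pow]
  have e2 : D.yQ (γ v) = D.yQ v := by rw [← hyQ, hk, scal_yQ_pow]
  have e3 : D.xR (γ v) = D.xR v := by rw [← hxR, hk, scal_xR_pow]
  have e4 : D.yR (γ v) = D.yR v := by rw [← hyR, hk, scal_yR_pow]
  obtain ⟨lam, hlam, hγv⟩ := injΓ γ hγ v hf hH0 hT0 e1 e2 e3 e4
  have hζ5 : D.ζ ^ 5 = 1 := hζ.pow_eq_one
  -- `v' = μ • v` with `μ ^ 10 = 1`
  set μ : Qb := D.ζ ^ k * lam with hμ
  have hv' : v' = μ • v := by rw [hk, hγv, hμ, mul_smul]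
  have hμ10 : μ ^ 10 = 1 := by
    have h10 : D.ζ ^ 10 = 1 := by
      have : D.ζ ^ 10 = (D.ζ ^ 5) ^ 2 := by ring
      rw [this, hζ5, one_pow]
    rw [hμ, mul_pow, hlam, mul_one, ← pow_mul, mul_comm, pow_mul, h10, one_pow]
  have hsq : (μ ^ 5 - 1) * (μ ^ 5 + 1) = 0 := by
    have : (μ ^ 5 - 1) * (μ ^ 5 + 1) = μ ^ 10 - 1 := by ring
    rw [this, hμ10, sub_self]
  rcases mul_eq_zero.mp hsq with h | h
  · -- `μ ^ 5 = 1`
    have h1 : μ ^ 5 = 1 := sub_eq_zero.mp h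
    obtain ⟨j, -, hj⟩ := hζ.eq_pow_of_pow_eq_one h1
    exact ⟨j, by rw [hv', hj]⟩
  · -- `μ ^ 5 = -1` is impossible
    exfalso
    have h1 : (-μ) ^ 5 = 1 := by
      have : (-μ) ^ 5 = -(μ ^ 5) := by ring
      rw [this]
      linear_combination -h
    obtain ⟨j, -, hj⟩ := hζ.eq_pow_of_pow_eq_one h1
    have hv'' : v' = -(D.ζ ^ j • v) := by
      rw [hv', hj]
      simp
    have : D.yQ v' = -D.yQ v := by rw [hv'', hodd, scal_yQ_pow]
    rw [hyQ] at this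
    have h2 : (2 : Qb) * D.yQ v = 0 := by linear_combination this
    rcases mul_eq_zero.mp h2 with h3 | h3
    · norm_num at h3
    · exact yQ_ne_zero D hf h3

/-- Assemble `KleinData.Ext`. -/
theorem ext_of_gamma (D : KleinData) (hD : D.Fibres) (hζ : IsPrimitiveRoot D.ζ 5)
    (hodd : ∀ v : V2, D.yQ (-v) = -D.yQ v)
    (law_det : ∀ γ ∈ D.Γ, ∃ a b c d : ℤ, (5 : ℤ) ∣ a * d - b * c - 1 ∧
      ∀ (v : V2) (hv : D.f v ≠ 0),
      PtEq (kleinCurve (D.H v) (D.T v)) (D.xQ (γ v)) (D.yQ (γ v))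
        (a • (Point.some (D.xQ v) (D.yQ v) (D.nonsingQ v hv)) +
          c • (Point.some (D.xR v) (D.yR v) (D.nonsingR v hv))) ∧
      PtEq (kleinCurve (D.H v) (D.T v)) (D.xR (γ v)) (D.yR (γ v))
        (b • (Point.some (D.xQ v) (D.yQ v) (D.nonsingQ v hv)) +
          d • (Point.some (D.xR v) (D.yR v) (D.nonsingR v hv))))
    (galR_fix : ∀ σ : GQ, σ D.ζ = D.ζ → ∀ v : V2,
      σ (D.xR v) = D.xR (gal σ v) ∧ σ (D.yR v) = D.yR (gal σ v))
    (injΓ : ∀ γ ∈ D.Γ, ∀ v : V2, D.f v ≠ 0 → D.H v ≠ 0 → D.T v ≠ 0 →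
      D.xQ (γ v) = D.xQ v → D.yQ (γ v) = D.yQ v → D.xR (γ v) = D.xR v → D.yR (γ v) = D.yR v →
      ∃ lam : Qb, lam ^ 10 = 1 ∧ γ v = lam • v) : D.Ext :=
  ⟨law_det, galR_fix, inj_of_gamma D hD hζ hodd injΓ⟩

end Fermat.Agent.S52K3.ExtBridge
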