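/-
S52 / K3 (helper6): a semistable integral Weierstrass model with `Δ ≠ 0` has `c₄ ≠ 0` and `c₆ ≠ 0`
(otherwise `Δ = ±1`, and `c₆² = ∓1728` resp. `c₄ = ±12` are impossible).
-/
import Mathlib
import Fermat.Prelude.Def_FLTPrelim_Modularity

set_option autoImplicit false

open WeierstrassCurve

namespace Fermat.Agent.S52K3.NonzeroC

/-- An integer without prime divisors is `±1`. -/
theorem eq_one_or_neg_one_of_no_prime_dvd {d : ℤ}
    (h : ∀ p : ℕ, p.Prime → ¬ (p : ℤ) ∣ d) : d = 1 ∨ d = -1 := by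
  have h1 : d.natAbs = 1 := by
    by_contra hne
    obtain ⟨p, hp, hpd⟩ := Nat.exists_prime_and_dvd hne
    exact h p hp (Int.natCast_dvd.mpr hpd)
  rcases Int.natAbs_eq d with h2 | h2
  · left; rw [h2, h1]; rfl
  · right; rw [h2, h1]; rfl

theorem sq_ne_1728 (x : ℤ) : x ^ 2 ≠ 1728 := by
  intro h
  have h1 : x.natAbs ^ 2 = 1728 := by
    have := congrArg Int.natAbs h
    rw [Int.natAbs_pow] at this
    exact this
  rcases Nat.lt_or_ge x.natAbs 42 with h2 | h2
  · have : x.natAbs ^ 2 ≤ 41 ^ 2 := Nat.pow_le_pow_left (by omega) 2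
    omega
  · have : 42 ^ 2 ≤ x.natAbs ^ 2 := Nat.pow_le_pow_left h2 2
    omega

theorem c4_mod_eight (a1 a2 : ZMod 8) : (a1 ^ 2 + 4 * a2) ^ 2 ≠ 4 := by
  revert a1 a2
  decide

/-- `c₄ = ±12` is impossible for an integral model. -/
theorem c4_ne_twelve (W : WeierstrassCurve ℤ) : W.c₄ ≠ 12 ∧ W.c₄ ≠ -12 := by
  have key : ∀ e : ℤ, (e : ZMod 8) = 4 → W.c₄ ≠ e := by
    intro e he h
    have h1 := congrArg (Int.cast : ℤ → ZMod 8) h
    rw [he] at h1
    simp only [c₄, b₂, b₄] at h1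
    push_cast at h1
    have h24 : (24 : ZMod 8) = 0 := by decide
    rw [h24, zero_mul, sub_zero] at h1
    exact c4_mod_eight _ _ h1
  exact ⟨key 12 (by decide), key (-12) (by decide)⟩

theorem c4_ne_zero (W : WeierstrassCurve ℤ) (_hΔ : W.Δ ≠ 0) (hss : W.IsSemistableModel) :
    W.c₄ ≠ 0 := by
  intro h0
  have hu : W.Δ = 1 ∨ W.Δ = -1 := by
    apply eq_one_or_neg_one_of_no_prime_dvd
    intro p hp hpd
    exact hss p hp hpd (by rw [h0]; exact dvd_zero _)
  have hrel := W.c_relation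
  rw [h0] at hrel
  rcases hu with h | h
  · rw [h] at hrel
    nlinarith [sq_nonneg W.c₆]
  · rw [h] at hrel
    exact sq_ne_1728 W.c₆ (by linarith)

theorem c6_ne_zero (W : WeierstrassCurve ℤ) (_hΔ : W.Δ ≠ 0) (hss : W.IsSemistableModel) :
    W.c₆ ≠ 0 := by
  intro h0
  have hrel := W.c_relation
  rw [h0] at hrel
  have hrel' : 1728 * W.Δ = W.c₄ ^ 3 := by rw [hrel]; ring
  have hu : W.Δ = 1 ∨ W.Δ = -1 := by
    apply eq_one_or_neg_one_of_no_prime_dvd
    intro p hp hpd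
    apply hss p hp hpd
    have hpz : Prime (p : ℤ) := Nat.prime_iff_prime_int.mp hp
    have : (p : ℤ) ∣ W.c₄ ^ 3 := by rw [← hrel']; exact Dvd.dvd.mul_left hpd _
    exact hpz.dvd_of_dvd_pow this
  have hodd : Function.Injective (fun x : ℤ => x ^ 3) :=
    (Odd.strictMono_pow (by decide : Odd 3)).injective
  rcases hu with h | h
  · rw [h] at hrel'
    have : W.c₄ = 12 := hodd (by simp only; rw [← hrel']; norm_num)
    exact (c4_ne_twelve W).1 this
  · rw [h] at hrel'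
    have : W.c₄ = -12 := hodd (by simp only; rw [← hrel']; norm_num)
    exact (c4_ne_twelve W).2 this

end Fermat.Agent.S52K3.NonzeroC
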